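import Mathlib

set_option autoImplicit false
set_option linter.style.haveILetI false

namespace Fermat.Agent.S49.DS

open scoped IsMulCommutative

section

variable {K V : Type*} [Field K] [IsAlgClosed K] [AddCommGroup V] [Module K V]
  [FiniteDimensional K V] {H : Type*} [CommRing H]

theorem exists_eigenvector_ker_le (ρ : H →+* Module.End K V) (hρ : Function.Injective ρ)
    (m : Ideal H) [m.IsPrime] :
    ∃ (ψ : H →+* K) (v : V), v ≠ 0 ∧ (∀ h, ρ h v = ψ h • v) ∧ RingHom.ker ψ ≤ m := by
  classical
  have hcomm : ∀ x ∈ Set.range ρ, ∀ y ∈ Set.range ρ, x * y = y * x := by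
    rintro _ ⟨a, rfl⟩ _ ⟨b, rfl⟩
    rw [← map_mul, ← map_mul, mul_comm]
  let A : Subalgebra K (Module.End K V) := Algebra.adjoin K (Set.range ρ)
  haveI : IsMulCommutative A := Algebra.isMulCommutative_adjoin K hcomm
  letI : CommRing A := inferInstance
  let ι : H →+* A := ρ.codRestrict A (fun h => Algebra.subset_adjoin ⟨h, rfl⟩)
  have hι : Function.Injective ι := by
    intro a b hab
    apply hρ
    exact congrArg Subtype.val hab
  haveI : Module.Finite K A := inferInstance
  haveI : IsNoetherianRing A := isNoetherian_of_tower K (inferInstance : IsNoetherian K A)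
  haveI : Module.Finite A V := Module.Finite.of_restrictScalars_finite K A V
  have hann : Module.annihilator A V = ⊥ := by
    rw [eq_bot_iff]
    intro a ha
    rw [Module.mem_annihilator] at ha
    rw [Ideal.mem_bot]
    apply Subtype.ext
    apply LinearMap.ext
    intro v
    exact ha v
  -- the multiplicative set
  let S : Submonoid A := Submonoid.map (ι : H →* A) m.primeCompl
  have hdisj : Disjoint ((⊥ : Ideal A) : Set A) (S : Set A) := by
    rw [Set.disjoint_left]
    rintro a ha ⟨h, hh, rfl⟩
    have h0 : h = 0 := hι (by simpa using ha)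
    exact hh (h0 ▸ m.zero_mem)
  obtain ⟨n, hn, -, hnS⟩ := Ideal.exists_le_prime_disjoint (⊥ : Ideal A) S hdisj
  obtain ⟨n', hn', hn'n⟩ := Ideal.exists_minimalPrimes_le (bot_le : (⊥ : Ideal A) ≤ n)
  have hass : n' ∈ associatedPrimes A V := by
    apply Module.associatedPrimes.minimalPrimes_annihilator_subset_associatedPrimes A V
    rw [hann]; exact hn'
  obtain ⟨hn'prime, v, hv⟩ := (isAssociatedPrime_iff).mp hass
  have hmem : ∀ a : A, a ∈ n' ↔ (a : Module.End K V) v = 0 := by
    intro a
    rw [hv, Submodule.mem_colon_singleton, Submodule.mem_bot]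
    rfl
  have hv0 : v ≠ 0 := by
    rintro rfl
    apply hn'prime.ne_top
    rw [Ideal.eq_top_iff_one, hmem]
    simp
  haveI : Algebra.IsIntegral K (A ⧸ n') := inferInstance
  have hbij : Function.Bijective (algebraMap K (A ⧸ n')) :=
    IsAlgClosed.algebraMap_bijective_of_isIntegral
  let e : K ≃+* A ⧸ n' := RingEquiv.ofBijective (algebraMap K (A ⧸ n')) hbij
  let φ : A →+* K := (e.symm : A ⧸ n' →+* K).comp (Ideal.Quotient.mk n')
  have hφ : ∀ a : A, a - algebraMap K A (φ a) ∈ n' := by
    intro a
    rw [← Ideal.Quotient.eq]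
    have : (algebraMap K (A ⧸ n')) (φ a) = Ideal.Quotient.mk n' a := e.apply_symm_apply _
    rw [← this]
    rfl
  have heig : ∀ a : A, (a : Module.End K V) v = φ a • v := by
    intro a
    have h1 := (hmem _).mp (hφ a)
    simpa [sub_eq_zero] using h1
  refine ⟨φ.comp ι, v, hv0, fun h => heig (ι h), ?_⟩
  intro h hh
  rw [RingHom.mem_ker, RingHom.comp_apply] at hh
  by_contra hm
  have h1 : ι h ∈ n' := by
    have := hφ (ι h)
    rwa [hh, map_zero, sub_zero] at this
  have h2 : ι h ∈ S := ⟨h, hm, rfl⟩
  exact Set.disjoint_left.mp hnS (hn'n h1) h2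

end

section

variable {K V : Type*} [CommRing K] [AddCommGroup V] [Module K V]

theorem isIntegral_of_lattice (H : Subalgebra ℤ (Module.End K V)) (L : Submodule ℤ V)
    (hfg : L.FG) (hspan : Submodule.span K (L : Set V) = ⊤)
    (hL : ∀ h ∈ H, ∀ x ∈ L, h x ∈ L) (h : H) : IsIntegral ℤ h := by
  let r : H →+* Module.End ℤ L :=
    { toFun := fun h => ((h : Module.End K V).restrictScalars ℤ).restrict
        (fun x hx => hL h h.2 x hx)
      map_one' := by ext; rfl
      map_mul' := by intros; ext; rfl
      map_zero' := by ext; rfl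
      map_add' := by intros; ext; rfl }
  have hinj : Function.Injective r.toIntAlgHom := by
    intro a b hab
    apply Subtype.ext
    apply LinearMap.ext_on hspan
    intro x hx
    have := congrArg (fun g : Module.End ℤ L => ((g ⟨x, hx⟩ : L) : V)) hab
    exact this
  haveI : Module.Finite ℤ L := Module.Finite.iff_fg.mpr hfg
  exact (isIntegral_algHom_iff r.toIntAlgHom hinj).mp (Algebra.IsIntegral.isIntegral _)

end

end Fermat.Agent.S49.DS
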