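import Mathlib
import Fermat.Prelude.Def_FormalHecke_Eigensystem

set_option autoImplicit false

namespace Fermat.Agent.S49.Recur

variable {R : Type*} [CommRing R]

/-- eigen-relation with prescribed eigenvalues -/
def Rel (e lam b : ℕ → R) : Prop :=
  ∀ ℓ : ℕ, ℓ.Prime → ∀ n : ℕ,
    b (ℓ * n) + e ℓ * (if ℓ ∣ n then b (n / ℓ) else 0) = lam ℓ * b n

theorem eq_zero_of_one_eq_zero {e lam b : ℕ → R} (h : Rel e lam b) (h1 : b 1 = 0) :
    ∀ n, 0 < n → b n = 0 := by
  intro n
  induction n using Nat.strong_induction_on with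
  | _ n ih =>
    intro hn
    rcases Nat.lt_or_ge n 2 with h2 | h2
    · have : n = 1 := by omega
      rw [this]; exact h1
    · have hp := Nat.minFac_prime (by omega : n ≠ 1)
      obtain ⟨m, hm⟩ := Nat.minFac_dvd n
      have hmpos : 0 < m := by
        rcases Nat.eq_zero_or_pos m with rfl | h0
        · omega
        · exact h0
      have hmlt : m < n := by
        have := hp.one_lt
        nlinarith
      have hr := h _ hp m
      rw [← hm, ih m hmlt hmpos, mul_zero] at hr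
      by_cases hd : n.minFac ∣ m
      · have hq : 0 < m / n.minFac := Nat.div_pos (Nat.le_of_dvd hmpos hd) hp.pos
        have hq' : m / n.minFac < n := lt_of_le_of_lt (Nat.div_le_self _ _) hmlt
        rw [if_pos hd, ih _ hq' hq, mul_zero, add_zero] at hr
        exact hr
      · rw [if_neg hd, mul_zero, add_zero] at hr
        exact hr

theorem isRecursive_of_isEigensystem {e a : ℕ → R} (h : FormalHecke.IsEigensystem e a) :
    FormalHecke.IsRecursive e a := by
  obtain ⟨h1, hrel⟩ := h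
  have hrec : ∀ ℓ r : ℕ, ℓ.Prime →
      a (ℓ ^ (r + 2)) = a ℓ * a (ℓ ^ (r + 1)) - e ℓ * a (ℓ ^ r) := by
    intro ℓ r hℓ
    have hr := hrel ℓ hℓ (ℓ ^ (r + 1))
    have hd : ℓ ∣ ℓ ^ (r + 1) := dvd_pow_self ℓ (by omega)
    have hdiv : ℓ ^ (r + 1) / ℓ = ℓ ^ r := by
      rw [pow_succ, Nat.mul_div_cancel _ hℓ.pos]
    have hmul : ℓ * ℓ ^ (r + 1) = ℓ ^ (r + 2) := by ring
    rw [if_pos hd, hdiv, hmul] at hr
    linear_combination hr
  have hK : ∀ ℓ : ℕ, ℓ.Prime → ∀ k n : ℕ, ¬ ℓ ∣ n → a (ℓ ^ k * n) = a (ℓ ^ k) * a n := by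
    intro ℓ hℓ k
    induction k using Nat.twoStepInduction with
    | zero => intro n _; simp [h1]
    | one =>
      intro n hn
      have hr := hrel ℓ hℓ n
      rw [if_neg hn, mul_zero, add_zero] at hr
      simpa using hr
    | more k ih0 ih1 =>
      intro n hn
      have hr := hrel ℓ hℓ (ℓ ^ (k + 1) * n)
      have hd : ℓ ∣ ℓ ^ (k + 1) * n := Dvd.dvd.mul_right (dvd_pow_self ℓ (by omega)) n
      have hdiv : ℓ ^ (k + 1) * n / ℓ = ℓ ^ k * n := by
        rw [pow_succ, mul_assoc, mul_comm ℓ n, ← mul_assoc, Nat.mul_div_cancel _ hℓ.pos]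
      have hmul : ℓ * (ℓ ^ (k + 1) * n) = ℓ ^ (k + 2) * n := by ring
      rw [if_pos hd, hdiv, hmul, ih0 n hn, ih1 n hn] at hr
      rw [hrec ℓ k hℓ]
      linear_combination hr
  refine ⟨h1, ?_, hrec⟩
  intro m
  induction m using Nat.recOnPrimeCoprime with
  | zero =>
    intro n hn
    rw [Nat.coprime_zero_left] at hn
    subst hn
    simp [h1]
  | prime_pow p k hp =>
    intro n hn
    rcases Nat.eq_zero_or_pos k with rfl | hk
    · simp [h1]
    · have hpn : ¬ p ∣ n := by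
        rw [Nat.coprime_pow_left_iff hk] at hn
        exact (Nat.Prime.coprime_iff_not_dvd hp).mp hn
      exact hK p hp k n hpn
  | coprime m₁ m₂ _ _ hc ih₁ ih₂ =>
    intro n hn
    rw [Nat.coprime_mul_iff_left] at hn
    rw [mul_assoc, ih₁ (m₂ * n) (Nat.Coprime.mul_right hc hn.1), ih₂ n hn.2, ih₁ m₂ hc]
    ring

end Fermat.Agent.S49.Recur
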