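import Fermat.Agent.S49.QCoeff
import Fermat.Agent.S49.Recur

set_option autoImplicit false

namespace Fermat.Agent.S49.Eigen

open CuspForm CongruenceSubgroup ModularFormClass UpperHalfPlane
open Fermat.Agent.S49.QCoeff Fermat.Agent.S49.Recur

theorem exists_normalized {N : ℕ} [NeZero N] (g : CuspForm (Gamma0 N) 2) (hg : g ≠ 0)
    (lam : ℕ → ℂ)
    (hT : ∀ (p : ℕ) (hp : p.Prime) (hpN : ¬ p ∣ N), CuspForm.heckeTLin 2 hp hpN g = lam p • g)
    (hU : ∀ (p : ℕ) (_ : p.Prime) (hpN : p ∣ N), CuspForm.heckeULin 2 hpN g = lam p • g) :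
    ∃ f : CuspForm (Gamma0 N) 2, f.IsNormalizedEigenform ∧
      ∀ p : ℕ, p.Prime → qCoeff f p = lam p := by
  classical
  let e : ℕ → ℂ := fun p => if p ∣ N then 0 else (p : ℂ)
  have hrel : Rel e lam (fun n => qCoeff g n) := by
    intro ℓ hℓ n
    by_cases hℓN : ℓ ∣ N
    · have h1 := qCoeff_heckeULin hℓ hℓN g n
      rw [hU ℓ hℓ hℓN, qCoeff_smul] at h1
      simp only [e, if_pos hℓN, zero_mul, add_zero]
      exact h1.symm
    · have h1 := qCoeff_heckeTLin hℓ hℓN g n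
      rw [hT ℓ hℓ hℓN, qCoeff_smul] at h1
      simp only [e, if_neg hℓN]
      rw [h1]
      split_ifs <;> simp
  have hb1 : qCoeff g 1 ≠ 0 := by
    intro h1
    apply hg
    apply eq_zero_of_qCoeff
    intro n
    rcases Nat.eq_zero_or_pos n with rfl | hn
    · exact qCoeff_zero_eq g
    · exact eq_zero_of_one_eq_zero hrel h1 n hn
  let f : CuspForm (Gamma0 N) 2 := (qCoeff g 1)⁻¹ • g
  have hf : ∀ n, qCoeff f n = (qCoeff g 1)⁻¹ * qCoeff g n := fun n => qCoeff_smul _ _ _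
  have hrel' : Rel e lam (fun n => qCoeff f n) := by
    intro ℓ hℓ n
    have h1 := hrel ℓ hℓ n
    simp only [hf]
    split_ifs at h1 ⊢ <;> linear_combination (qCoeff g 1)⁻¹ * h1
  have hf1 : qCoeff f 1 = 1 := by rw [hf]; exact inv_mul_cancel₀ hb1
  have hlam : ∀ p : ℕ, p.Prime → qCoeff f p = lam p := by
    intro p hp
    have h1 := hrel' p hp 1
    simp only [mul_one, if_neg hp.not_dvd_one, mul_zero, add_zero, hf1] at h1
    exact h1
  have heigsys : FormalHecke.IsEigensystem e (fun n => qCoeff f n) :=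
    ⟨hf1, fun ℓ hℓ n => by simp only [hlam ℓ hℓ]; exact hrel' ℓ hℓ n⟩
  obtain ⟨-, hmul, hrec⟩ := isRecursive_of_isEigensystem heigsys
  refine ⟨f, ⟨hf1, hmul, ?_, ?_⟩, hlam⟩
  · intro p r hp hpN
    have h1 := hrec p r hp
    simpa only [e, if_neg hpN] using h1
  · intro p r hp hpN
    have h1 := hrec p r hp
    simpa only [e, if_pos hpN, zero_mul, sub_zero] using h1

end Fermat.Agent.S49.Eigen
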