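import Mathlib
import Fermat.Prelude.Def_CuspForm_IntegralLattice
import Fermat.Prelude.Def_FormalHecke_Eigensystem
import Fermat.Prelude.Def_ModularForm_EisensteinChiNegThree
import Fermat.Prelude.Def_FLTPrelim_Modularity
import Fermat.Prelude.Def_CuspForm_HeckeAlgebra
import Fermat.Prelude.Def_CuspForm_IntegralStructure
import Fermat.Prelude.Thm_CuspForm_intLattice_fg
import Fermat.Prelude.Thm_CuspForm_mem_intLattice_of_mem_heckeAlgebra
import Fermat.Prelude.Thm_ModularFormClass_qCoeff_heckeT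
import Fermat.Prelude.Thm_ModularFormClass_qCoeff_heckeU
import Fermat.Prelude.Thm_CongruenceSubgroup_one_mem_strictPeriods_Gamma0

set_option autoImplicit false

namespace Fermat.Agent.S49.QCoeff

open CuspForm CongruenceSubgroup ModularFormClass UpperHalfPlane

variable {N : ℕ}

theorem qCoeff_add (f g : CuspForm (Gamma0 N) 2) (n : ℕ) :
    qCoeff (⇑(f + g)) n = qCoeff f n + qCoeff g n := by
  unfold qCoeff
  rw [FunLike.coe_add, ModularForm.qExpansion_add one_pos (one_mem_strictPeriods_Gamma0 N) f g]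
  simp

theorem qCoeff_smul (c : ℂ) (f : CuspForm (Gamma0 N) 2) (n : ℕ) :
    qCoeff (⇑(c • f)) n = c * qCoeff f n := by
  unfold qCoeff
  rw [FunLike.coe_smul, ModularForm.qExpansion_smul one_pos (one_mem_strictPeriods_Gamma0 N) c f]
  simp

theorem qCoeff_zero_eq (f : CuspForm (Gamma0 N) 2) : qCoeff (⇑f) 0 = 0 := by
  unfold qCoeff
  exact CuspFormClass.qExpansion_coeff_zero f one_pos (one_mem_strictPeriods_Gamma0 N)

noncomputable def qCoeffLin (n : ℕ) : CuspForm (Gamma0 N) 2 →ₗ[ℂ] ℂ where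
  toFun f := qCoeff (⇑f) n
  map_add' f g := qCoeff_add f g n
  map_smul' c f := qCoeff_smul c f n

theorem qCoeffLin_apply (n : ℕ) (f : CuspForm (Gamma0 N) 2) : qCoeffLin n f = qCoeff (⇑f) n := rfl

theorem qCoeff_zero_form (n : ℕ) : qCoeff (⇑(0 : CuspForm (Gamma0 N) 2)) n = 0 :=
  (qCoeffLin (N := N) n).map_zero

theorem eq_zero_of_qCoeff (f : CuspForm (Gamma0 N) 2) (h : ∀ n, qCoeff (⇑f) n = 0) : f = 0 := by
  have hΓ := one_mem_strictPeriods_Gamma0 N
  have : Fact (IsCusp OnePoint.infty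
      (Subgroup.map (Matrix.SpecialLinearGroup.mapGL ℝ) (Gamma0 N))) :=
    ⟨Subgroup.isCusp_of_mem_strictPeriods one_pos hΓ⟩
  have h0 : qExpansion 1 (⇑f) = 0 := by
    ext n
    simpa [qCoeff] using h n
  have h1 := (qExpansion_eq_zero_iff one_pos
    (SlashInvariantFormClass.periodic_comp_ofComplex f hΓ) (ModularFormClass.holo f)
    (ModularFormClass.bdd_at_infty f)).mp h0
  exact DFunLike.coe_injective h1

theorem qCoeff_heckeTLin {p : ℕ} (hp : p.Prime) (hpN : ¬ p ∣ N) (f : CuspForm (Gamma0 N) 2)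
    (n : ℕ) :
    qCoeff (⇑(CuspForm.heckeTLin 2 hp hpN f)) n =
      qCoeff f (p * n) + (if p ∣ n then (p : ℂ) * qCoeff f (n / p) else 0) := by
  rw [CuspForm.coe_heckeTLin_apply,
    ModularFormClass.qCoeff_heckeT f (one_mem_strictPeriods_Gamma0 N) hp.ne_zero n,
    ModularForm.coeffHeckeT_apply, mul_comm n p]
  norm_num

theorem qCoeff_heckeULin [NeZero N] {p : ℕ} (hp : p.Prime) (hpN : p ∣ N)
    (f : CuspForm (Gamma0 N) 2) (n : ℕ) :
    qCoeff (⇑(CuspForm.heckeULin 2 hpN f)) n = qCoeff f (p * n) := by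
  rw [CuspForm.coe_heckeULin_apply,
    ModularFormClass.qCoeff_heckeU f (one_mem_strictPeriods_Gamma0 N) hp.ne_zero n,
    ModularForm.coeffHeckeU_apply, mul_comm n p]

theorem qCoeff_int_of_mem_intLattice {x : CuspForm (Gamma0 N) 2}
    (hx : x ∈ CuspForm.intLattice N 2) (n : ℕ) : ∃ m : ℤ, qCoeff (⇑x) n = (m : ℂ) := by
  unfold CuspForm.intLattice at hx
  induction hx using Submodule.span_induction with
  | mem y hy => exact hy n
  | zero => exact ⟨0, by rw [qCoeff_zero_form]; simp⟩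
  | add y z _ _ hy hz =>
    obtain ⟨a, ha⟩ := hy
    obtain ⟨b, hb⟩ := hz
    exact ⟨a + b, by rw [qCoeff_add, ha, hb]; push_cast; rfl⟩
  | smul c y _ hy =>
    obtain ⟨a, ha⟩ := hy
    refine ⟨c * a, ?_⟩
    have : c • y = (c : ℂ) • y := (Int.cast_smul_eq_zsmul ℂ c y).symm
    rw [this, qCoeff_smul, ha]; push_cast; rfl

theorem mem_intLattice_of_qCoeff_int {x : CuspForm (Gamma0 N) 2}
    (hx : ∀ n : ℕ, ∃ m : ℤ, qCoeff (⇑x) n = (m : ℂ)) : x ∈ CuspForm.intLattice N 2 :=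
  Submodule.subset_span hx

/-- forms all of whose coefficients are integers divisible by three -/
noncomputable def triple (N : ℕ) : Submodule ℤ (CuspForm (Gamma0 N) 2) where
  carrier := {x | ∀ n : ℕ, ∃ m : ℤ, qCoeff (⇑x) n = 3 * (m : ℂ)}
  add_mem' := by
    intro x y hx hy n
    obtain ⟨a, ha⟩ := hx n
    obtain ⟨b, hb⟩ := hy n
    exact ⟨a + b, by rw [qCoeff_add, ha, hb]; push_cast; ring⟩
  zero_mem' := fun n => ⟨0, by rw [qCoeff_zero_form]; simp⟩
  smul_mem' := by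
    intro c x hx n
    obtain ⟨a, ha⟩ := hx n
    refine ⟨c * a, ?_⟩
    have : c • x = (c : ℂ) • x := (Int.cast_smul_eq_zsmul ℂ c x).symm
    rw [this, qCoeff_smul, ha]; push_cast; ring

theorem mem_triple_iff {x : CuspForm (Gamma0 N) 2} :
    x ∈ triple N ↔ ∀ n : ℕ, ∃ m : ℤ, qCoeff (⇑x) n = 3 * (m : ℂ) := Iff.rfl

theorem exists_third {x : CuspForm (Gamma0 N) 2} (hx : x ∈ triple N) :
    ∃ y ∈ CuspForm.intLattice N 2, x = (3 : ℂ) • y := by
  refine ⟨(3 : ℂ)⁻¹ • x, mem_intLattice_of_qCoeff_int fun n => ?_, ?_⟩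
  · obtain ⟨m, hm⟩ := hx n
    exact ⟨m, by rw [qCoeff_smul, hm]; field_simp⟩
  · rw [smul_smul]; norm_num

theorem three_smul_mem_triple {y : CuspForm (Gamma0 N) 2} (hy : y ∈ CuspForm.intLattice N 2) :
    (3 : ℂ) • y ∈ triple N := by
  intro n
  obtain ⟨m, hm⟩ := qCoeff_int_of_mem_intLattice hy n
  exact ⟨m, by rw [qCoeff_smul, hm]⟩

theorem hecke_mem_triple [NeZero N] {S : Set ℕ}
    {t : Module.End ℂ (CuspForm (Gamma0 N) 2)} (ht : t ∈ CuspForm.heckeAlgebra N 2 S)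
    {x : CuspForm (Gamma0 N) 2} (hx : x ∈ triple N) : t x ∈ triple N := by
  obtain ⟨y, hy, rfl⟩ := exists_third hx
  rw [map_smul]
  exact three_smul_mem_triple (CuspForm.mem_intLattice_of_mem_heckeAlgebra (by norm_num) ht hy)

end Fermat.Agent.S49.QCoeff
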