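import Fermat.Agent.S49.QCoeff

set_option autoImplicit false

namespace Fermat.Agent.S49.Mod3

open CuspForm CongruenceSubgroup ModularFormClass UpperHalfPlane EisensteinWeightOne
open Fermat.Agent.S49.QCoeff

theorem chi_zmod (ℓ : ℕ) : ((chiNegThree ℓ : ℤ) : ZMod 3) = (ℓ : ZMod 3) := by
  have h1 : (ℓ : ZMod 3) = ((ℓ % 3 : ℕ) : ZMod 3) := (ZMod.natCast_mod ℓ 3).symm
  rw [h1]
  unfold chiNegThree
  have h3 : ℓ % 3 < 3 := Nat.mod_lt _ (by norm_num)
  interval_cases (ℓ % 3) <;> simp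
  decide

theorem e1_map : PowerSeries.map (Int.castRingHom (ZMod 3)) (e1Chi3In ℤ) = 1 := by
  ext n
  simp only [e1Chi3In, e1Chi3, PowerSeries.coeff_map, PowerSeries.coeff_mk, PowerSeries.coeff_one]
  split_ifs with h
  · simp
  · have : (6 : ZMod 3) = 0 := by decide
    simp [this]

theorem bridge_zmod (a : ℕ → ℤ) (n : ℕ) :
    (((bridgeProduct a).coeff n : ℤ) : ZMod 3) = ((a n : ℤ) : ZMod 3) := by
  have h := congrArg (fun P => PowerSeries.coeff n P)
    (show PowerSeries.map (Int.castRingHom (ZMod 3)) (bridgeProduct a) =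
      PowerSeries.map (Int.castRingHom (ZMod 3)) (PowerSeries.mk a) by
      unfold bridgeProduct
      rw [map_mul, e1_map, mul_one])
  simpa using h

section

variable {N : ℕ} [NeZero N] {a : ℕ → ℤ}
  (heig : FormalHecke.IsEigensystem
    (fun ℓ => if ℓ ∣ N then 0 else ((chiNegThree ℓ : ℤ) : ℤ)) a)
  (f : CuspForm (Gamma0 N) 2) (af : ℕ → ℤ) (haf : ∀ n, (af n : ℂ) = qCoeff f n)
  (h3 : ∀ n, (3 : ℤ) ∣ af n - (bridgeProduct a).coeff n)

include h3 in
theorem af_zmod (k : ℕ) : ((af k : ℤ) : ZMod 3) = ((a k : ℤ) : ZMod 3) := by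
  have h := (ZMod.intCast_zmod_eq_zero_iff_dvd _ 3).mpr (h3 k)
  rw [Int.cast_sub, sub_eq_zero] at h
  rw [h, bridge_zmod]

omit [NeZero N] in
include heig haf h3 in
theorem not_mem_triple : f ∉ triple N := by
  intro hf
  obtain ⟨m, hm⟩ := hf 1
  rw [← haf 1] at hm
  have hm' : af 1 = 3 * m := by exact_mod_cast hm
  have h1 := af_zmod af h3 1
  rw [heig.1, hm'] at h1
  have : (3 : ZMod 3) = 0 := by decide
  simp [this] at h1

include heig haf h3 in
theorem heckeT_congr {ℓ : ℕ} (hℓ : ℓ.Prime) (hℓN : ¬ ℓ ∣ N) :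
    CuspForm.heckeTLin 2 hℓ hℓN f - (a ℓ : ℂ) • f ∈ triple N := by
  intro n
  have hrel := heig.2 ℓ hℓ n
  simp only [if_neg hℓN] at hrel
  have hz : (((af (ℓ * n) + (if ℓ ∣ n then (ℓ : ℤ) * af (n / ℓ) else 0) - a ℓ * af n : ℤ)) :
      ZMod 3) = 0 := by
    have hrel' := congrArg (fun z : ℤ => (z : ZMod 3)) hrel
    simp only [Int.cast_add, Int.cast_mul, chi_zmod] at hrel'
    push_cast
    rw [af_zmod af h3, af_zmod af h3 n]
    by_cases hdvd : ℓ ∣ n
    · simp only [if_pos hdvd] at hrel' ⊢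
      rw [af_zmod af h3]
      linear_combination hrel'
    · simp only [if_neg hdvd] at hrel' ⊢
      push_cast at hrel'
      linear_combination hrel'
  obtain ⟨m, hm⟩ := (ZMod.intCast_zmod_eq_zero_iff_dvd _ 3).mp hz
  refine ⟨m, ?_⟩
  have hsub : qCoeff (⇑(CuspForm.heckeTLin 2 hℓ hℓN f - (a ℓ : ℂ) • f)) n =
      qCoeff (⇑(CuspForm.heckeTLin 2 hℓ hℓN f)) n - qCoeff (⇑((a ℓ : ℂ) • f)) n :=
    (qCoeffLin (N := N) n).map_sub _ _
  rw [hsub, qCoeff_heckeTLin, qCoeff_smul, ← haf, ← haf, ← haf]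
  have hm' : ((_ : ℤ) : ℂ) = ((_ : ℤ) : ℂ) := congrArg (fun z : ℤ => (z : ℂ)) hm
  push_cast at hm'
  split_ifs at hm' ⊢ <;> linear_combination hm'

include heig haf h3 in
theorem heckeU_congr {q : ℕ} (hq : q.Prime) (hqN : q ∣ N) :
    CuspForm.heckeULin 2 hqN f - (a q : ℂ) • f ∈ triple N := by
  intro n
  have hrel := heig.2 q hq n
  simp only [if_pos hqN, zero_mul, add_zero] at hrel
  have hz : (((af (q * n) - a q * af n : ℤ)) : ZMod 3) = 0 := by
    have hrel' := congrArg (fun z : ℤ => (z : ZMod 3)) hrel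
    simp only [Int.cast_mul] at hrel'
    push_cast
    rw [af_zmod af h3, af_zmod af h3 n, hrel']
    simp
  obtain ⟨m, hm⟩ := (ZMod.intCast_zmod_eq_zero_iff_dvd _ 3).mp hz
  refine ⟨m, ?_⟩
  have hsub : qCoeff (⇑(CuspForm.heckeULin 2 hqN f - (a q : ℂ) • f)) n =
      qCoeff (⇑(CuspForm.heckeULin 2 hqN f)) n - qCoeff (⇑((a q : ℂ) • f)) n :=
    (qCoeffLin (N := N) n).map_sub _ _
  rw [hsub, qCoeff_heckeULin hq, qCoeff_smul, ← haf, ← haf]
  have hm' : ((_ : ℤ) : ℂ) = ((_ : ℤ) : ℂ) := congrArg (fun z : ℤ => (z : ℂ)) hm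
  push_cast at hm'
  linear_combination hm'

end

end Fermat.Agent.S49.Mod3
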