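import Fermat.Agent.S49.DS
import Fermat.Agent.S49.Mod3
import Fermat.Agent.S49.Eigen

set_option autoImplicit false
set_option linter.unusedSectionVars false
set_option linter.style.haveILetI false

namespace Fermat.Agent.S49.Main

open CuspForm EisensteinWeightOne CongruenceSubgroup ModularFormClass
open Fermat.Agent.S49.QCoeff Fermat.Agent.S49.Mod3

section aux

variable {N : ℕ} [NeZero N]

theorem algebraMap_apply_form (c : ℤ) (f : CuspForm (Gamma0 N) 2) :
    (algebraMap ℤ (Module.End ℂ (CuspForm (Gamma0 N) 2)) c) f = (c : ℂ) • f := by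
  rw [Algebra.algebraMap_eq_smul_one, LinearMap.smul_apply, Module.End.one_apply,
    Int.cast_smul_eq_zsmul]

theorem intCast_smul_mem_triple (d : ℤ) {x : CuspForm (Gamma0 N) 2} (hx : x ∈ triple N) :
    (d : ℂ) • x ∈ triple N := by
  rw [Int.cast_smul_eq_zsmul]
  exact (triple N).smul_mem d hx

theorem exists_int_congr {f : CuspForm (Gamma0 N) 2}
    (hgen : ∀ t ∈ CuspForm.heckeGenerators N 2 (∅ : Set ℕ),
      ∃ c : ℤ, t f - (c : ℂ) • f ∈ triple N)
    {t : Module.End ℂ (CuspForm (Gamma0 N) 2)}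
    (ht : t ∈ CuspForm.heckeAlgebra N 2 (∅ : Set ℕ)) :
    ∃ c : ℤ, t f - (c : ℂ) • f ∈ triple N := by
  unfold CuspForm.heckeAlgebra at ht
  induction ht using Algebra.adjoin_induction with
  | mem x hx => exact hgen x hx
  | algebraMap r => exact ⟨r, by rw [algebraMap_apply_form, sub_self]; exact (triple N).zero_mem⟩
  | add x y hx hy ihx ihy =>
    obtain ⟨c, hc⟩ := ihx
    obtain ⟨d, hd⟩ := ihy
    refine ⟨c + d, ?_⟩
    have h1 := (triple N).add_mem hc hd
    have h2 : (x + y) f - ((c + d : ℤ) : ℂ) • f = x f - (c : ℂ) • f + (y f - (d : ℂ) • f) := by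
      rw [LinearMap.add_apply]; push_cast; rw [add_smul]; abel
    rw [h2]; exact h1
  | mul x y hx hy ihx ihy =>
    obtain ⟨c, hc⟩ := ihx
    obtain ⟨d, hd⟩ := ihy
    refine ⟨c * d, ?_⟩
    have h1 : x (y f - (d : ℂ) • f) ∈ triple N := hecke_mem_triple hx hd
    have h2 := intCast_smul_mem_triple d hc
    have h3 := (triple N).add_mem h1 h2
    have h4 : (x * y) f - ((c * d : ℤ) : ℂ) • f =
        x (y f - (d : ℂ) • f) + (d : ℂ) • (x f - (c : ℂ) • f) := by
      rw [Module.End.mul_apply, map_sub, map_smul, smul_sub, smul_smul]; push_cast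
      rw [mul_comm (d : ℂ) (c : ℂ)]; abel
    rw [h4]; exact h3

/-- the ideal of Hecke operators killing `f` modulo three -/
noncomputable def killIdeal (f : CuspForm (Gamma0 N) 2) :
    Ideal (CuspForm.heckeAlgebra N 2 (∅ : Set ℕ)) where
  carrier := {t | (t : Module.End ℂ (CuspForm (Gamma0 N) 2)) f ∈ triple N}
  add_mem' := by
    intro s t hs ht
    exact (triple N).add_mem hs ht
  zero_mem' := (triple N).zero_mem
  smul_mem' := by
    intro c t ht
    exact hecke_mem_triple c.2 ht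

theorem mem_killIdeal {f : CuspForm (Gamma0 N) 2}
    (t : CuspForm.heckeAlgebra N 2 (∅ : Set ℕ)) :
    t ∈ killIdeal f ↔ (t : Module.End ℂ (CuspForm (Gamma0 N) 2)) f ∈ triple N := Iff.rfl

theorem sub_algebraMap_mem_killIdeal {f : CuspForm (Gamma0 N) 2}
    (t : CuspForm.heckeAlgebra N 2 (∅ : Set ℕ)) (c : ℤ) :
    t - algebraMap ℤ (CuspForm.heckeAlgebra N 2 (∅ : Set ℕ)) c ∈ killIdeal f ↔
      (t : Module.End ℂ (CuspForm (Gamma0 N) 2)) f - (c : ℂ) • f ∈ triple N := by
  rw [mem_killIdeal]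
  have : ((t - algebraMap ℤ (CuspForm.heckeAlgebra N 2 (∅ : Set ℕ)) c :
      CuspForm.heckeAlgebra N 2 (∅ : Set ℕ)) : Module.End ℂ (CuspForm (Gamma0 N) 2)) f =
      (t : Module.End ℂ (CuspForm (Gamma0 N) 2)) f - (c : ℂ) • f := by
    rw [← algebraMap_apply_form]
    rfl
  rw [this]

end aux

theorem main
    {N : ℕ} [NeZero N] (h : CuspForm.HasIntegralBasis N) {a : ℕ → ℤ}
    (heig : FormalHecke.IsEigensystem
      (fun ℓ => if ℓ ∣ N then 0 else ((chiNegThree ℓ : ℤ) : ℤ)) a)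
    (hreal : CuspForm.IsLatticeRealized N a) :
    ∃ (f : CuspForm (Gamma0 N) 2) (_ : f.IsNormalizedEigenform)
      (𝔪' : Ideal (integralClosure ℤ ℂ)), 𝔪'.IsMaximal ∧
      ((3 : ℕ) : integralClosure ℤ ℂ) ∈ 𝔪' ∧
      ∀ (ℓ : ℕ) (_ : ℓ.Prime) (_ : ¬ ℓ ∣ N),
        ∃ c : integralClosure ℤ ℂ, (c : ℂ) = ModularFormClass.qCoeff f ℓ ∧
          c - (a ℓ : integralClosure ℤ ℂ) ∈ 𝔪' := by
  classical
  obtain ⟨f, hfint, af, haf, h3⟩ := hreal
  let H := CuspForm.heckeAlgebra N 2 (∅ : Set ℕ)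
  let L := CuspForm.intLattice N 2
  let m : Ideal H := killIdeal f
  have hfL : f ∈ L := mem_intLattice_of_qCoeff_int fun n => by
    obtain ⟨k, hk⟩ := Subring.mem_bot.mp (hfint n)
    exact ⟨k, hk.symm⟩
  -- generators act by integers modulo three
  have hgen : ∀ t ∈ CuspForm.heckeGenerators N 2 (∅ : Set ℕ),
      ∃ c : ℤ, t f - (c : ℂ) • f ∈ triple N := by
    rintro t (⟨ℓ, hℓ, hℓN, -, rfl⟩ | ⟨q, hqN, hq, -, rfl⟩)
    · exact ⟨a ℓ, heckeT_congr heig f af haf h3 hℓ hℓN⟩
    · exact ⟨a q, heckeU_congr heig f af haf h3 hq hqN⟩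
  have hall : ∀ t : H, ∃ c : ℤ, t - algebraMap ℤ H c ∈ m := by
    intro t
    obtain ⟨c, hc⟩ := exists_int_congr hgen t.2
    exact ⟨c, (sub_algebraMap_mem_killIdeal t c).mpr hc⟩
  have h3m : algebraMap ℤ H 3 ∈ m := by
    have h0 := (sub_algebraMap_mem_killIdeal (f := f) (0 : H) (-3)).mpr (by
      have : ((0 : H) : Module.End ℂ (CuspForm (Gamma0 N) 2)) f - ((-3 : ℤ) : ℂ) • f
          = (3 : ℂ) • f := by
        push_cast
        rw [neg_smul, sub_neg_eq_add]
        simp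
      rw [this]
      exact three_smul_mem_triple hfL)
    simpa using h0
  have hone : (1 : H) ∉ m := fun h1 => not_mem_triple heig f af haf h3 h1
  have hmax : m.IsMaximal := by
    rw [Ideal.isMaximal_iff]
    refine ⟨hone, fun J x hmJ hxm hxJ => ?_⟩
    obtain ⟨c, hc⟩ := hall x
    have hcJ : algebraMap ℤ H c ∈ J := by
      have := J.sub_mem hxJ (hmJ hc)
      simpa using this
    have hc3 : ¬ (3 : ℤ) ∣ c := by
      rintro ⟨d, rfl⟩
      apply hxm
      have h4 : algebraMap ℤ H (3 * d) ∈ m := by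
        rw [map_mul]; exact m.mul_mem_right _ h3m
      have := m.add_mem hc h4
      simpa using this
    have hcop : IsCoprime (3 : ℤ) c :=
      (Irreducible.coprime_iff_not_dvd Int.prime_three.irreducible).mpr hc3
    obtain ⟨u, v, huv⟩ := hcop
    have h5 : (1 : H) = algebraMap ℤ H u * algebraMap ℤ H 3 + algebraMap ℤ H v * algebraMap ℤ H c := by
      rw [← map_mul, ← map_mul, ← map_add, huv, map_one]
    rw [h5]
    exact J.add_mem (J.mul_mem_left _ (hmJ h3m)) (J.mul_mem_left _ hcJ)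
  haveI := hmax.isPrime
  -- finite dimensionality
  have hspan : Submodule.span ℂ (L : Set (CuspForm (Gamma0 N) 2)) = ⊤ := by
    rw [eq_top_iff, ← h]
    apply Submodule.span_mono
    intro x hx
    exact mem_intLattice_of_qCoeff_int fun n => by
      obtain ⟨k, hk⟩ := Subring.mem_bot.mp (hx n)
      exact ⟨k, hk.symm⟩
  have hfg : L.FG := CuspForm.intLattice_fg N 2
  haveI : FiniteDimensional ℂ (CuspForm (Gamma0 N) 2) := by
    obtain ⟨s, hs⟩ := hfg
    rw [← hs, Submodule.span_span_of_tower] at hspan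
    exact ⟨⟨s, hspan⟩⟩
  -- simultaneous eigenvector
  obtain ⟨ψ, g, hg0, hgeig, hker⟩ := DS.exists_eigenvector_ker_le
    (H.val : H →+* Module.End ℂ (CuspForm (Gamma0 N) 2)) Subtype.val_injective m
  let lam : ℕ → ℂ := fun p =>
    if hp : p.Prime then
      (if hpN : p ∣ N then ψ (heckeAlgebra.U hp hpN (Set.notMem_empty p))
        else ψ (heckeAlgebra.T hp hpN (Set.notMem_empty p)))
    else 0
  obtain ⟨F, hF, hFlam⟩ := Eigen.exists_normalized g hg0 lam
    (fun p hp hpN => by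
      simp only [lam, dif_pos hp, dif_neg hpN]
      exact hgeig (heckeAlgebra.T hp hpN (Set.notMem_empty p)))
    (fun p hp hpN => by
      simp only [lam, dif_pos hp, dif_pos hpN]
      exact hgeig (heckeAlgebra.U hp hpN (Set.notMem_empty p)))
  -- integrality
  have hint : ∀ t : H, IsIntegral ℤ (ψ t) := fun t =>
    (DS.isIntegral_of_lattice H L hfg hspan
      (fun t ht x hx => CuspForm.mem_intLattice_of_mem_heckeAlgebra (by norm_num) ht hx) t).map
      ψ.toIntAlgHom
  let ψ' : H →+* integralClosure ℤ ℂ := ψ.codRestrict (integralClosure ℤ ℂ) hint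
  letI : Algebra H (integralClosure ℤ ℂ) := ψ'.toAlgebra
  haveI : Algebra.IsIntegral H (integralClosure ℤ ℂ) :=
    ⟨fun x => (integralClosure.isIntegral x).tower_top⟩
  have hker' : RingHom.ker (algebraMap H (integralClosure ℤ ℂ)) ≤ m := by
    intro t ht
    apply hker
    rw [RingHom.mem_ker] at ht ⊢
    exact congrArg Subtype.val ht
  obtain ⟨Q, hQmax, hQ⟩ := Ideal.exists_ideal_over_maximal_of_isIntegral
    (S := integralClosure ℤ ℂ) m hker'
  have hQmem : ∀ t : H, t ∈ m → ψ' t ∈ Q := by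
    intro t ht
    rw [← hQ] at ht
    exact ht
  refine ⟨F, hF, Q, hQmax, ?_, ?_⟩
  · have := hQmem _ h3m
    rw [eq_intCast, map_intCast] at this
    exact_mod_cast this
  · intro ℓ hℓ hℓN
    refine ⟨ψ' (heckeAlgebra.T hℓ hℓN (Set.notMem_empty ℓ)), ?_, ?_⟩
    · rw [hFlam ℓ hℓ]
      simp only [lam, dif_pos hℓ, dif_neg hℓN]
      rfl
    · have hTm : heckeAlgebra.T hℓ hℓN (Set.notMem_empty ℓ) - algebraMap ℤ H (a ℓ) ∈ m :=
        (sub_algebraMap_mem_killIdeal _ _).mpr (heckeT_congr heig f af haf h3 hℓ hℓN)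
      have := hQmem _ hTm
      simpa using this

end Fermat.Agent.S49.Main
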